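/-
PROJECT D (S48), part B, block B3, brick E1/E0 core (helper3): EQUIVARIANCE OF PLACE REDUCTIONS,
ABSTRACT IN THE PAIR OF AUTOMORPHISMS.

`FL = laurentBaseChange L F₀`, `Fk ⊆ k((q))`, `r : Place L FL → Place k Fk` a place reduction
(`Defs.Reduction.IsPlaceReductionAlongG`), `gL : SemilinearAut L FL`, `gk : SemilinearAut k Fk`.

* `EquivOnIntegral A π F₀ Fk r gL gk` : `r_* (gL • D) = gk • r_* D` on the divisors of the integral
  elements with nonzero reduction (the only place where the nature of `gL`, `gk` enters: Galois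
  elements acting coefficientwise for (R1), (R2); the diamond automorphisms for (R0)).
* `mapDomain_smul_of_principal` : then the same on all principal divisors.
* `exists_sep` : separation of the two place maps `P ↦ r (gL • P)`, `P ↦ gk • r P` through the fibres
  over `0` and `1` of a function fixed by both automorphisms.
* `placeMap_smul` : `r (gL • P) = gk • r P` (helper2's rigidity lemma of main, imported).
* `reductionPic0AlongG_smul`, `reductionAlongG_smul` : the same on `Pic0`.

Generic twin of the abstract half of main's `S37/Equivariance/PlaceEquiv` (helper3).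
-/
import Mathlib
import Fermat.Agent.S24.Ord
import Fermat.Agent.S37.Deuring.Rigidity
import Fermat.Agent.S48.B.Defs.Reduction

set_option autoImplicit false
set_option linter.unusedSectionVars false

noncomputable section

namespace Fermat.Agent.S48.B.Red.Equiv1.Core

open HahnSeries IntermediateField AlgebraicCurve ModularCurve
open Fermat.Agent.S48.B.Defs.Reduction Fermat.Agent.S18.NonSpecial

variable {L : Type*} [Field L] [Algebra ℚ L] {A : ValuationSubring L}
variable {k : Type*} [Field k] {π : A →+* k}
variable {F₀ : IntermediateField ℚ (LaurentSeries ℚ)} {Fk : IntermediateField k (LaurentSeries k)}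
variable {r : Place L (laurentBaseChange L F₀) → Place k Fk}
variable {gL : SemilinearAut L (laurentBaseChange L F₀)} {gk : SemilinearAut k Fk}

variable (A π F₀ Fk) in
/-- `r_* (gL • D) = gk • r_* D` on the divisors of the integral elements with nonzero reduction -/
def EquivOnIntegral (r : Place L (laurentBaseChange L F₀) → Place k Fk)
    (gL : SemilinearAut L (laurentBaseChange L F₀)) (gk : SemilinearAut k Fk) : Prop :=
  ∀ D ∈ integralPrincipalDivisorsG A π F₀ Fk,
    Finsupp.mapDomain r (gL • D) = gk • Finsupp.mapDomain r D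

/-- **on principal divisors `r_* (gL • D) = gk • r_* D`** -/
theorem mapDomain_smul_of_principal (hint : EquivOnIntegral A π F₀ Fk r gL gk)
    (hgen : PrincipalGeneratedByIntegralG A π F₀ Fk)
    {D : Divisor L (laurentBaseChange L F₀)}
    (hD : D ∈ Divisor.principal (K := L) (F := laurentBaseChange L F₀)) :
    Finsupp.mapDomain r (gL • D) = gk • Finsupp.mapDomain r D := by
  have hD' := hgen hD
  clear hD
  induction hD' using AddSubgroup.closure_induction with
  | mem E hE => exact hint E hE
  | zero => rw [smul_zero, Finsupp.mapDomain_zero, smul_zero]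
  | add E E' _ _ hE hE' =>
    rw [smul_add, Finsupp.mapDomain_add, Finsupp.mapDomain_add, smul_add, hE, hE']
  | neg E _ hE =>
    have hneg : ∀ E' : Divisor L (laurentBaseChange L F₀),
        Finsupp.mapDomain r (-E') = -Finsupp.mapDomain r E' :=
      fun E' => (Finsupp.mapDomain.addMonoidHom r).map_neg E'
    rw [smul_neg, hneg, hneg, smul_neg, hE]

/-- the shape of `Rigidity.placeMap_ext` -/
theorem mapDomain_comp_eq (hint : EquivOnIntegral A π F₀ Fk r gL gk)
    (hgen : PrincipalGeneratedByIntegralG A π F₀ Fk)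
    {D : Divisor L (laurentBaseChange L F₀)}
    (hD : D ∈ Divisor.principal (K := L) (F := laurentBaseChange L F₀)) :
    Finsupp.mapDomain (fun P => r (gL • P)) D = Finsupp.mapDomain (fun P => gk • r P) D := by
  have h1 : (fun P => r (gL • P)) = r ∘ (fun P => gL • P) := rfl
  have h2 : (fun P => gk • r P) = (fun Q => gk • Q) ∘ r := rfl
  rw [h1, h2, Finsupp.mapDomain_comp, Finsupp.mapDomain_comp,
    ← SemilinearAut.divisor_smul_def, ← SemilinearAut.divisor_smul_def]
  exact mapDomain_smul_of_principal hint hgen hD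

/-- a place is not a zero of both `x` and `x - 1` -/
theorem not_ord_pos_both {K F : Type*} [Field K] [Field F] [Algebra K F] (Q : Place K F) (x : F)
    (h0 : 0 < Q.ord x) : ¬ 0 < Q.ord (x - 1) := by
  intro h1
  have hx0 : x ≠ 0 := by
    rintro rfl
    rw [Place.ord_zero] at h0
    exact lt_irrefl _ h0
  have hx1 : x - 1 ≠ 0 := by
    intro h
    rw [h, Place.ord_zero] at h1
    exact lt_irrefl _ h1
  rw [Fermat.Agent.S24.Ord.ord_pos_iff Q hx0] at h0
  rw [Fermat.Agent.S24.Ord.ord_pos_iff Q hx1] at h1
  have h3 : Q.adicValuation (1 : F) < 1 := by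
    have h4 : (1 : F) = x - (x - 1) := by ring
    rw [h4]
    exact lt_of_le_of_lt (Valuation.map_sub _ _ _) (max_lt h0 h1)
  rw [map_one] at h3
  exact lt_irrefl _ h3

/-- **separation** through the fibres over `0` and `1` of a function `xL` fixed by `gL`, with
reduction `xk` fixed by `gk`, when `r` maps the zeros of `xL`, `xL - 1` to zeros of `xk`, `xk - 1` -/
theorem exists_sep (xL : laurentBaseChange L F₀) (xk : Fk)
    (hfixL : gL • xL = xL) (hfixk : gk • xk = xk)
    (hex0 : ∃ P : Place L (laurentBaseChange L F₀), 0 < P.ord xL)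
    (hex1 : ∃ P : Place L (laurentBaseChange L F₀), 0 < P.ord (xL - 1))
    (hmap0 : ∀ P : Place L (laurentBaseChange L F₀), 0 < P.ord xL → 0 < (r P).ord xk)
    (hmap1 : ∀ P : Place L (laurentBaseChange L F₀), 0 < P.ord (xL - 1) → 0 < (r P).ord (xk - 1))
    (Q₁ : Place k Fk) :
    ∃ P₂ : Place L (laurentBaseChange L F₀), r (gL • P₂) ≠ Q₁ ∧ gk • r P₂ ≠ Q₁ := by
  have hfixL1 : gL • (xL - 1) = xL - 1 := by rw [smul_sub, smul_one, hfixL]
  have hfixk1 : gk • (xk - 1) = xk - 1 := by rw [smul_sub, smul_one, hfixk]
  by_cases hQ : 0 < Q₁.ord xk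
  · -- `Q₁` is a zero of `xk`: use the fibre over `1`
    obtain ⟨P₂, hP₂⟩ := hex1
    have hne := not_ord_pos_both Q₁ xk hQ
    refine ⟨P₂, fun h => hne ?_, fun h => hne ?_⟩
    · rw [← h]
      refine hmap1 _ ?_
      rw [← hfixL1, SemilinearAut.ord_smul]
      exact hP₂
    · rw [← h, ← hfixk1, SemilinearAut.ord_smul]
      exact hmap1 _ hP₂
  · obtain ⟨P₂, hP₂⟩ := hex0
    refine ⟨P₂, fun h => hQ ?_, fun h => hQ ?_⟩
    · rw [← h]
      refine hmap0 _ ?_
      rw [← hfixL, SemilinearAut.ord_smul]
      exact hP₂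
    · rw [← h, ← hfixk, SemilinearAut.ord_smul]
      exact hmap0 _ hP₂

/-- **the place maps agree**: `r (gL • P) = gk • r P` -/
theorem placeMap_smul {g : ℕ} (hR : RiemannHyp L (laurentBaseChange L F₀) g)
    [HasPrincipalDivisors L (laurentBaseChange L F₀)]
    (hint : EquivOnIntegral A π F₀ Fk r gL gk)
    (hgen : PrincipalGeneratedByIntegralG A π F₀ Fk)
    (hsep : ∀ Q₁ : Place k Fk,
      ∃ P₂ : Place L (laurentBaseChange L F₀), r (gL • P₂) ≠ Q₁ ∧ gk • r P₂ ≠ Q₁)
    (P : Place L (laurentBaseChange L F₀)) : r (gL • P) = gk • r P :=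
  congrFun (Fermat.Agent.S37.Deuring.Rigidity.placeMap_ext hR
    (fun P => r (gL • P)) (fun P => gk • r P)
    (fun _ hD => mapDomain_comp_eq hint hgen hD) hsep) P

/-- if the place maps agree, so do the maps on `Pic0` -/
theorem reductionPic0AlongG_smul
    (hr : IsPlaceReductionAlongG A π F₀ Fk r) (hgen : PrincipalGeneratedByIntegralG A π F₀ Fk)
    (hP : ∀ P, r (gL • P) = gk • r P)
    (x : Pic0 L (laurentBaseChange L F₀)) :
    reductionPic0AlongG r hr hgen (gL • x) = gk • reductionPic0AlongG r hr hgen x := by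
  obtain ⟨D, rfl⟩ := Pic0.mk_surjective x
  rw [SemilinearAut.pic0_smul_mk, reductionPic0AlongG_mk, reductionPic0AlongG_mk,
    SemilinearAut.pic0_smul_mk]
  refine congrArg Pic0.mk (Subtype.ext ?_)
  rw [coe_reductionDegZeroAlongG, SemilinearAut.coe_degZeroSMulHom,
    SemilinearAut.coe_degZeroSMulHom, coe_reductionDegZeroAlongG,
    SemilinearAut.divisor_smul_def, SemilinearAut.divisor_smul_def,
    ← Finsupp.mapDomain_comp, ← Finsupp.mapDomain_comp]
  congr 1
  funext P
  exact hP P

/-- the same for the total map `reductionAlongG` (zero when the inputs are not available), under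
the hypothesis that EVERY place reduction is equivariant -/
theorem reductionAlongG_smul
    (hall : ∀ r : Place L (laurentBaseChange L F₀) → Place k Fk,
      IsPlaceReductionAlongG A π F₀ Fk r → PrincipalGeneratedByIntegralG A π F₀ Fk →
        ∀ P, r (gL • P) = gk • r P)
    (x : Pic0 L (laurentBaseChange L F₀)) :
    reductionAlongG A π F₀ Fk (gL • x) = gk • reductionAlongG A π F₀ Fk x := by
  by_cases h : ReductionInputsAlongG A π F₀ Fk
  · rw [reductionAlongG_eq h]
    exact reductionPic0AlongG_smul h.choose_spec.1 h.choose_spec.2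
      (hall h.choose h.choose_spec.1 h.choose_spec.2) x
  · rw [reductionAlongG_of_not h, AddMonoidHom.zero_apply, AddMonoidHom.zero_apply, smul_zero]

end Fermat.Agent.S48.B.Red.Equiv1.Core

end
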