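/-
PROJECT D (S48), part B, block B3, brick E1 (helper3): THE REDUCTION OF `J₁(M)` IS EQUIVARIANT FOR
THE DECOMPOSITION GROUP: (R1) = `Seams.Inertia1`, (R2) = `Seams.Frobenius1`.

Generic twin of main's `S37/Equivariance/PlaceEquiv` (helper3) on top of `Equiv1/Core`:

* GENERIC (`F₀`, `Fk` with `CoeffStable Fk`): for a compatibility datum `Compat A π σ σA sbar`
  (main's `S37/Equivariance/GaussEquiv`, imported), `equivOnIntegral_of_compat` : the pair
  `(arithmeticGalois F₀ σ, coeffAut h sbar)` satisfies `Core.EquivOnIntegral` for every place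
  reduction `r`.
* `X₁(M)`: `smul_jgen1`, `smul_jC` (the `j`-functions are fixed), the hypothesis `FibreHyp1 M A`
  (Riemann's theorem for `ℚ̄(X₁(M))`, places over `j = 0, 1`, and every place reduction maps the
  fibres of `j` over `0`, `1` into those of `j̄`: the `X₁` twin of `S18/B/FibreX0Id.mem_zeros_map`),
  `placeMap_smul`, `reduction1_smul`, and the two seams
  `inertia1_of (h : ∀ ℓ A .., FibreHyp1 M A) : Seams.Inertia1 M`,
  `frobenius1_of (h : ∀ ℓ A .., FibreHyp1 M A) : Seams.Frobenius1 M`.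
-/
import Mathlib
import Fermat.Agent.S37.Equivariance.GaussEquiv
import Fermat.Agent.S48.B.Red.Equiv1.Core
import Fermat.Agent.S48.B.Red.CoeffAut1
import Fermat.Agent.S48.B.Red.Seams

set_option autoImplicit false
set_option linter.unusedSectionVars false
set_option synthInstance.maxHeartbeats 400000

noncomputable section

namespace Fermat.Agent.S48.B.Red.Equiv1.PlaceEquiv1

open HahnSeries IntermediateField AlgebraicCurve ModularCurve IsLocalRing
open Fermat.Agent.S48.B.Defs.Model Fermat.Agent.S48.B.Defs.Reduction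
open Fermat.Agent.S48.B.Red.CoeffAut1 Fermat.Agent.S48.B.Red.Equiv1.Core
open Fermat.Agent.S37.Equivariance.GaussEquiv
open Fermat.Agent.S18.NonSpecial (RiemannHyp)

/-! ### Generic part: Galois elements acting coefficientwise -/

section Generic

variable {L : Type*} [Field L] [Algebra ℚ L] {A : ValuationSubring L}
variable {k : Type*} [Field k] {π : A →+* k}
variable {F₀ : IntermediateField ℚ (LaurentSeries ℚ)} {Fk : IntermediateField k (LaurentSeries k)}
variable {σ : L ≃ₐ[ℚ] L} {σA : A ≃+* A} {sbar : k ≃+* k}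
variable {r : Place L (laurentBaseChange L F₀) → Place k Fk}

/-- the compatibility datum gives equivariance on the integral principal divisors -/
theorem equivOnIntegral_of_compat (hst : CoeffStable Fk) (h : Compat A π σ σA sbar)
    (hr : IsPlaceReductionAlongG A π F₀ Fk r) :
    EquivOnIntegral A π F₀ Fk r (arithmeticGalois F₀ σ) (coeffAut hst sbar) := by
  rintro D ⟨y, hy, hyk, hne, hDy⟩
  have hy' : coeffMap A.subtype (coeffMap (σA : A →+* A) y) ∈ laurentBaseChange L F₀ := by
    rw [h.coeffMap_subtype]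
    exact coeffMap_mem_laurentBaseChange σ hy
  have hyk' : coeffMap π (coeffMap (σA : A →+* A) y) ∈ Fk := by
    rw [h.coeffMap_res]
    exact hst _ _ hyk
  have hne' : coeffMap π (coeffMap (σA : A →+* A) y) ≠ 0 := by
    rw [h.coeffMap_res]
    intro h0
    apply hne
    have h1 : coeffRingAut hst sbar ⟨coeffMap π y, hyk⟩ = 0 := Subtype.ext h0
    have h2 := (map_eq_zero_iff _ (coeffRingAut hst sbar).injective).mp h1
    exact congrArg Subtype.val h2
  ext Q
  -- left-hand side
  have hL := hr.2 (coeffMap (σA : A →+* A) y) hy' hyk' hne'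
    (arithmeticGalois F₀ σ • D) (fun P => by
      rw [SemilinearAut.divisor_smul_apply, hDy]
      have h1 := SemilinearAut.ord_smul (arithmeticGalois F₀ σ)
        ((arithmeticGalois F₀ σ)⁻¹ • P)
        (⟨coeffMap A.subtype y, hy⟩ : laurentBaseChange L F₀)
      rw [smul_inv_smul] at h1
      rw [← h1]
      congr 1
      exact Subtype.ext (h.coeffMap_subtype y).symm) Q
  rw [hL, SemilinearAut.divisor_smul_apply,
    hr.2 y hy hyk hne D hDy ((coeffAut hst sbar)⁻¹ • Q)]
  have h2 := SemilinearAut.ord_smul (coeffAut hst sbar) ((coeffAut hst sbar)⁻¹ • Q)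
    (⟨coeffMap π y, hyk⟩ : Fk)
  rw [smul_inv_smul] at h2
  rw [← h2]
  congr 1
  exact Subtype.ext (h.coeffMap_res y)

end Generic

/-! ### `X₁(M)` -/

section X1

open Fermat.Agent.S48.B.B1.Seams (jgen1)
open Fermat.Agent.S48.B.Red.Seams (jC coe_jC)

local notation "Kb" => AlgebraicClosure ℚ

variable (M : ℕ) [NeZero M]

theorem coe_jgen1 :
    ((jgen1 M : F1Bar M) : LaurentSeries Kb) = coeffEmb Kb jq := by
  show ((IntermediateField.inclusion (laurentBaseChange_mono Kb (full_le_F1 M))
    (Fermat.Agent.S24.DegreeAlg.jgen M) : F1Bar M) : LaurentSeries Kb) = coeffEmb Kb jq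
  rw [IntermediateField.coe_inclusion, Fermat.Agent.S24.DegreeAlg.coe_jgen]

/-- `j` is fixed by the Galois action on `ℚ̄(X₁(M))` -/
theorem smul_jgen1 (σ : Kb ≃ₐ[ℚ] Kb) : arithmeticGalois (F1 M) σ • jgen1 M = jgen1 M := by
  apply Subtype.ext
  rw [coe_arithmeticGalois_smul, coe_jgen1, coeffMap_coeffEmb]

/-- `j̄` is fixed by the coefficientwise action on `k(X₁(M))` -/
theorem smul_jC (k : Type*) [Field k] (τ : RingAut k) : coeffAut₁ M k τ • jC M k = jC M k := by
  apply Subtype.ext
  rw [coe_coeffAut_smul, coe_jC]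
  exact coeffMap_jqModC _

variable (A : ValuationSubring Kb)

/-- instance shortcut (as in main's `S18/B/FibreX0Id`) -/
noncomputable local instance algShortcut :
    Algebra (ResidueField A) ↥(F1C M (ResidueField A)) :=
  SubalgebraClass.toAlgebra (F1C M (ResidueField A))

/-- **the fibre hypothesis** at `A` (supplied by the assembly of B3 from `IgusaDeg`, `IgusaSep`,
`Deg1` through main's generic engines `S18/A/{RiemannX1, PrincipalDivisors, FibreGeneric}`):
Riemann's theorem and principal divisors for `ℚ̄(X₁(M))`, places over `j = 0` and `j = 1`, and every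
place reduction maps the zeros of `j`, `j - 1` to zeros of `j̄`, `j̄ - 1`. -/
structure FibreHyp1 : Prop where
  pd : HasPrincipalDivisors Kb (F1Bar M)
  riemann : ∃ g : ℕ, RiemannHyp Kb (F1Bar M) g
  ex0 : ∃ P : Place Kb (F1Bar M), 0 < P.ord (jgen1 M)
  ex1 : ∃ P : Place Kb (F1Bar M), 0 < P.ord (jgen1 M - 1)
  map0 : ∀ r : Place Kb (F1Bar M) → Place (ResidueField A) (F1C M (ResidueField A)),
    IsPlaceReductionAlongG A (residue A) (F1 M) (F1C M (ResidueField A)) r →
      ∀ P, 0 < P.ord (jgen1 M) → 0 < (r P).ord (jC M (ResidueField A))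
  map1 : ∀ r : Place Kb (F1Bar M) → Place (ResidueField A) (F1C M (ResidueField A)),
    IsPlaceReductionAlongG A (residue A) (F1 M) (F1C M (ResidueField A)) r →
      ∀ P, 0 < P.ord (jgen1 M - 1) → 0 < (r P).ord (jC M (ResidueField A) - 1)

variable {M A}

/-- **(E3)**: every place reduction of `X₁(M)` is equivariant for the decomposition group. -/
theorem placeMap_smul (hF : FibreHyp1 M A)
    {r : Place Kb (F1Bar M) → Place (ResidueField A) (F1C M (ResidueField A))}
    (hr : IsPlaceReductionAlongG A (residue A) (F1 M) (F1C M (ResidueField A)) r)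
    (hgen : PrincipalGeneratedByIntegralG A (residue A) (F1 M) (F1C M (ResidueField A)))
    (g : A.decompositionSubgroup ℚ) (P : Place Kb (F1Bar M)) :
    r (arithmeticGalois (F1 M) (g : Kb ≃ₐ[ℚ] Kb) • P)
      = coeffAut₁ M (ResidueField A) (resAut A g) • r P := by
  obtain ⟨gL, hR⟩ := hF.riemann
  have hpd := hF.pd
  exact Core.placeMap_smul hR
    (equivOnIntegral_of_compat (coeffStable_F1C M (ResidueField A)) (compat A g) hr) hgen
    (exists_sep (jgen1 M) (jC M (ResidueField A)) (smul_jgen1 M _) (smul_jC M _ _)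
      hF.ex0 hF.ex1 (hF.map0 r hr) (hF.map1 r hr)) P

/-- **(E3) for `reduction1`** (no hypothesis `ReductionInputs1`: if it fails, the map is zero). -/
theorem reduction1_smul (hF : FibreHyp1 M A) (g : A.decompositionSubgroup ℚ) (x : J1 M) :
    reduction1 A M ((g : Kb ≃ₐ[ℚ] Kb) • x)
      = pic0Equiv₁ M (ResidueField A) (resAut A g) (reduction1 A M x) := by
  rw [galois_smul_pic0_def, pic0Equiv_apply]
  exact reductionAlongG_smul (fun r hr hgen P => placeMap_smul hF hr hgen g P) x

/-- **(R1)**: the reduction is invariant under inertia. -/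
theorem reduction1_smul_inertia (hF : FibreHyp1 M A)
    {σ : Kb ≃ₐ[ℚ] Kb} (hσ : σ ∈ A.inertiaSubgroupIn ℚ) (x : J1 M) :
    reduction1 A M (σ • x) = reduction1 A M x := by
  obtain ⟨g, rfl, hg⟩ := exists_of_mem_inertiaSubgroupIn A hσ
  rw [reduction1_smul hF g x, hg, pic0Equiv_one]

/-- **(R2)**: a Frobenius element acts through the Frobenius of `J1C M κ(A)`. -/
theorem reduction1_smul_frobenius (hF : FibreHyp1 M A) (ℓ : ℕ) [Fact ℓ.Prime]
    [CharP (ResidueField A) ℓ] [PerfectField (ResidueField A)]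
    {σ : Kb ≃ₐ[ℚ] Kb} (hσ : A.IsFrobeniusAt σ ℓ) (x : J1 M) :
    reduction1 A M (σ • x) = frobPic0₁ M (ResidueField A) ℓ (reduction1 A M x) := by
  have h := reduction1_smul hF ⟨σ, hσ.mem_decompositionSubgroup⟩ x
  rw [resAut_eq_frobAut A ℓ hσ] at h
  exact h

variable (M)

/-- **(R1) = `Seams.Inertia1`** from the fibre hypothesis at every `A`. -/
theorem inertia1_of
    (h : ∀ ℓ : ℕ, ℓ.Prime → ¬ ℓ ∣ M → ∀ A : ValuationSubring Kb, A.LiesOverPrime ℓ →
      FibreHyp1 M A) : Fermat.Agent.S48.B.Red.Seams.Inertia1 M :=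
  fun ℓ hℓ hℓM A hA _ hσ x => reduction1_smul_inertia (h ℓ hℓ hℓM A hA) hσ x

/-- **(R2) = `Seams.Frobenius1`** from the fibre hypothesis at every `A`. -/
theorem frobenius1_of
    (h : ∀ ℓ : ℕ, ℓ.Prime → ¬ ℓ ∣ M → ∀ A : ValuationSubring Kb, A.LiesOverPrime ℓ →
      FibreHyp1 M A) : Fermat.Agent.S48.B.Red.Seams.Frobenius1 M := by
  intro ℓ hℓ hℓM A hA _ _ σ hσ x
  exact reduction1_smul_frobenius (h ℓ hℓ.out hℓM A hA) ℓ hσ x

end X1

end Fermat.Agent.S48.B.Red.Equiv1.PlaceEquiv1

end
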